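import Mathlib
import Fermat.Agent.S16.MF.Exp
import Fermat.Agent.S16.COS.Iface
import Fermat.Agent.S16.RED.Basic
import Fermat.Agent.S16.NS.Final
import Fermat.Agent.S16.NS.Index

/-!
# S16 / UBa / Alt / NSApp (second prover): the norm–Sturm principle at level `Γ₀(p)`, integer form

Independent proof of the statements of `UBa/NSApp.lean` (same names, same statements, namespace
`Fermat.Agent.S16.UBa.Alt`).

`nsapp_int`: let `F ∈ M_k(Γ₀(p))`, `4 ∣ (p + 1) k`, `(p + 1) k < 12 p`, `ℓ` a prime.  Suppose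
* `c₁ F = Σ I'_n q^n` with `I' ∈ ℤ⟦q⟧`, `ℓ ∣ I'_n` for `n < p`, and `I' ≢ 0 mod ℓ`;
* `c₂ (F ∣ S) = Σ T'_n x^n` (`x = e^{2πiz/p}`) with `T' ∈ ℤ⟦x⟧`, `T' ≢ 0 mod ℓ`.
Then `False`.

Proof: `norm_sturm_exp` with `V = Vl ℓ`, `h = M = p`, `psi p = p + 1`.  Identity coset:
`c₁ F = Σ I'_n x^{p n}`.  Other cosets: `F ∣ γ = F ∣ S T^j` (`COS.slash_eq_of_not_dvd`),
`(G ∣ S T^j)(z) = (G ∣ S)(z + j)` (`slash_S_T_apply`), so `c₂ (F ∣ γ) = Σ ω^n T'_n x^n` with
`ω = e^{2πi j/p}` a root of unity (`HasExp.comp_add`).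
-/

set_option autoImplicit false

open UpperHalfPlane ModularForm CongruenceSubgroup
open scoped MatrixGroups ModularForm Real

namespace Fermat.Agent.S16.UBa.Alt

open Fermat.Agent.S23 (Gam psi)

namespace NSAppAux

/-- The automorphy factor of `T ^ j` is `1`. -/
theorem denom_T_pow (j : ℕ) (z : ℍ) : denom (ModularGroup.T ^ j : SL(2, ℤ)) z = 1 := by
  have h := ModularGroup.coe_T_zpow (j : ℤ)
  rw [zpow_natCast] at h
  have h10 : (ModularGroup.T ^ j : SL(2, ℤ)) 1 0 = 0 := by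
    have := congrFun (congrFun h 1) 0
    simpa using this
  have h11 : (ModularGroup.T ^ j : SL(2, ℤ)) 1 1 = 1 := by
    have := congrFun (congrFun h 1) 1
    simpa using this
  rw [ModularGroup.denom_apply, h10, h11]
  simp

/-- `T ^ j • z = z + j`. -/
theorem T_pow_smul (j : ℕ) (z w : ℍ) (hw : (w : ℂ) = (z : ℂ) + ((j : ℤ) : ℂ)) :
    (ModularGroup.T ^ j : SL(2, ℤ)) • z = w := by
  apply UpperHalfPlane.ext
  have h := ModularGroup.coe_T_zpow_smul_eq (z := z) (n := (j : ℤ))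
  rw [zpow_natCast] at h
  rw [h, hw]

/-- Reduction of an element of `Vl ℓ` which is an integer. -/
theorem red_mk_int (ℓ : ℕ) [Fact ℓ.Prime] (a : ℤ) (x : ℂ) (hx : x ∈ Vl ℓ) (h : x = (a : ℂ)) :
    red ℓ ⟨x, hx⟩ = 0 ↔ (ℓ : ℤ) ∣ a := by
  have e : (⟨x, hx⟩ : Vl ℓ) = ((a : ℤ) : Vl ℓ) := by
    apply Subtype.ext
    simpa using h
  rw [e]
  exact red_intCast_eq_zero_iff ℓ a

/-- `e^{2πi j / p}` is a `p`-th root of unity. -/
theorem omega_pow (p : ℕ) (hp : p ≠ 0) (j : ℤ) :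
    Complex.exp (2 * (π : ℂ) * Complex.I * (j : ℂ) / (p : ℂ)) ^ p = 1 := by
  have hpC : (p : ℂ) ≠ 0 := Nat.cast_ne_zero.mpr hp
  rw [← Complex.exp_nat_mul]
  have e : (p : ℂ) * (2 * (π : ℂ) * Complex.I * (j : ℂ) / (p : ℂ)) =
      (j : ℂ) * (2 * (π : ℂ) * Complex.I) := by
    field_simp
  rw [e]
  exact Complex.exp_int_mul_two_pi_mul_I j

end NSAppAux

/-- `(G ∣ S T^j)(z) = (G ∣ S)(z + j)`. -/
theorem slash_S_T_apply (k : ℤ) (G : ℍ → ℂ) (j : ℕ) (z w : ℍ)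
    (hw : (w : ℂ) = (z : ℂ) + ((j : ℤ) : ℂ)) :
    (G ∣[k] (ModularGroup.S * ModularGroup.T ^ j)) z = (G ∣[k] ModularGroup.S) w := by
  rw [SlashAction.slash_mul, ModularForm.SL_slash_apply, NSAppAux.denom_T_pow,
    NSAppAux.T_pow_smul j z w hw, one_zpow, mul_one]

/-- The norm–Sturm principle at level `Γ₀(p)` for integral expansions (see the file header). -/
theorem nsapp_int {p : ℕ} (hp : p.Prime) {ℓ : ℕ} (hℓ : ℓ.Prime) {k : ℤ}
    (F : ModularForm (Gam p) k)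
    (hK : (4 : ℤ) ∣ ((p : ℤ) + 1) * k) (hM : ((p : ℤ) + 1) * k < 12 * (p : ℤ))
    (c₁ c₂ : ℂ) (hc₁ : c₁ ≠ 0) (hc₂ : c₂ ≠ 0) (I' T' : PowerSeries ℤ)
    (hI : HasExp 1 (c₁ • (F : ℍ → ℂ)) (PowerSeries.map (Int.castRingHom ℂ) I'))
    (hI0 : ∀ n < p, (ℓ : ℤ) ∣ PowerSeries.coeff n I')
    (hI1 : ∃ n, ¬ (ℓ : ℤ) ∣ PowerSeries.coeff n I')
    (hT : HasExp p (c₂ • ((F : ℍ → ℂ) ∣[k] ModularGroup.S))
      (PowerSeries.map (Int.castRingHom ℂ) T'))
    (hT1 : ∃ n, ¬ (ℓ : ℤ) ∣ PowerSeries.coeff n T') : False := by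
  have : NeZero p := ⟨hp.ne_zero⟩
  have : Fact ℓ.Prime := ⟨hℓ⟩
  have hpsi : (psi p : ℤ) = (p : ℤ) + 1 := by
    rw [psi_prime hp]
    push_cast
    ring
  refine norm_sturm_exp F (Vl ℓ) (red ℓ) p hp.pos p (by rw [hpsi]; exact hK)
    (by rw [hpsi]; exact hM) ?_ ?_
  · -- the identity coset
    have hB : HasExp p (c₁ • (F : ℍ → ℂ))
        (PowerSeries.expand p hp.ne_zero (PowerSeries.map (Int.castRingHom ℂ) I')) := by
      have h1 := hI.expand_h p hp.ne_zero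
      rwa [one_mul] at h1
    -- description of the coefficients
    have hcoef : ∀ m : ℕ, PowerSeries.coeff m
        (PowerSeries.expand p hp.ne_zero (PowerSeries.map (Int.castRingHom ℂ) I')) =
        (((if p ∣ m then PowerSeries.coeff (m / p) I' else 0 : ℤ)) : ℂ) := by
      intro m
      rw [PowerSeries.coeff_expand]
      split_ifs with hdvd
      · rw [PowerSeries.coeff_map]
        rfl
      · simp
    have hV : ∀ m : ℕ, PowerSeries.coeff m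
        (PowerSeries.expand p hp.ne_zero (PowerSeries.map (Int.castRingHom ℂ) I')) ∈ Vl ℓ := by
      intro m
      rw [hcoef m]
      exact intCast_mem (Vl ℓ) _
    refine ⟨c₁, _, hc₁, hB, hV, ?_, ?_⟩
    · obtain ⟨n, hn⟩ := hI1
      refine ⟨p * n, ?_⟩
      rw [Ne, NSAppAux.red_mk_int ℓ _ _ (hV (p * n)) (hcoef (p * n))]
      rw [if_pos (Dvd.intro n rfl), Nat.mul_div_cancel_left n hp.pos]
      exact hn
    · intro m hm
      rw [NSAppAux.red_mk_int ℓ _ _ (hV m) (hcoef m)]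
      split_ifs with hdvd
      · apply hI0
        exact Nat.div_lt_of_lt_mul hm
      · exact dvd_zero _
  · -- the other cosets
    intro γ hγ
    have hnd : ¬ (p : ℤ) ∣ γ 1 0 := by
      intro hdvd
      apply hγ
      rw [CongruenceSubgroup.Gamma0_mem]
      exact (ZMod.intCast_zmod_eq_zero_iff_dvd (γ 1 0) p).mpr hdvd
    obtain ⟨j, -, hj⟩ := COS.slash_eq_of_not_dvd hp F γ hnd
    have hB : HasExp p (c₂ • ((F : ℍ → ℂ) ∣[k] γ))
        (PowerSeries.rescale (Complex.exp (2 * (π : ℂ) * Complex.I * ((j : ℤ) : ℂ) / (p : ℂ)))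
          (PowerSeries.map (Int.castRingHom ℂ) T')) := by
      refine hT.comp_add (j : ℤ) ?_
      intro z w hw
      rw [Pi.smul_apply, Pi.smul_apply, hj, slash_S_T_apply k (F : ℍ → ℂ) j z w hw]
    have hω := NSAppAux.omega_pow p hp.ne_zero (j : ℤ)
    have hωV : Complex.exp (2 * (π : ℂ) * Complex.I * ((j : ℤ) : ℂ) / (p : ℂ)) ∈ Vl ℓ :=
      rootOfUnity_mem_Vl ℓ hp.pos hω
    have hcoef : ∀ m : ℕ, PowerSeries.coeff m
        (PowerSeries.rescale (Complex.exp (2 * (π : ℂ) * Complex.I * ((j : ℤ) : ℂ) / (p : ℂ)))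
          (PowerSeries.map (Int.castRingHom ℂ) T')) =
        Complex.exp (2 * (π : ℂ) * Complex.I * ((j : ℤ) : ℂ) / (p : ℂ)) ^ m *
          ((PowerSeries.coeff m T' : ℤ) : ℂ) := by
      intro m
      rw [PowerSeries.coeff_rescale, PowerSeries.coeff_map]
      rfl
    have hV : ∀ m : ℕ, PowerSeries.coeff m
        (PowerSeries.rescale (Complex.exp (2 * (π : ℂ) * Complex.I * ((j : ℤ) : ℂ) / (p : ℂ)))
          (PowerSeries.map (Int.castRingHom ℂ) T')) ∈ Vl ℓ := by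
      intro m
      rw [hcoef m]
      exact (Vl ℓ).mul_mem ((Vl ℓ).pow_mem hωV m) (intCast_mem (Vl ℓ) _)
    refine ⟨c₂, _, hc₂, hB, hV, ?_⟩
    obtain ⟨n, hn⟩ := hT1
    refine ⟨n, ?_⟩
    have e : (⟨_, hV n⟩ : Vl ℓ) =
        (⟨_, hωV⟩ : Vl ℓ) ^ n * ((PowerSeries.coeff n T' : ℤ) : Vl ℓ) := by
      apply Subtype.ext
      simp
    rw [e, map_mul, map_pow]
    have hunit : IsUnit (⟨_, hωV⟩ : Vl ℓ) := by
      apply IsUnit.of_pow_eq_one (n := p) _ hp.ne_zero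
      apply Subtype.ext
      simpa using hω
    refine mul_ne_zero (pow_ne_zero n (red_ne_zero_of_isUnit ℓ hunit)) ?_
    intro h0
    exact hn ((red_intCast_eq_zero_iff ℓ _).mp h0)

end Fermat.Agent.S16.UBa.Alt
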